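import Mathlib

/-!
# GR-S: the `ℓ¹`-norm on finitely supported integer valued functions
-/

set_option autoImplicit false

namespace Fermat.Agent.GR.S

variable {S T : Type*}

/-- the `ℓ¹`-norm. -/
noncomputable def l1 (E : S →₀ ℤ) : ℕ := E.sum fun _ n => n.natAbs

theorem l1_zero : l1 (0 : S →₀ ℤ) = 0 := by simp [l1]

theorem l1_single (s : S) (n : ℤ) : l1 (Finsupp.single s n) = n.natAbs := by
  simp [l1]

theorem L1_eq_sum_of_subset {E : S →₀ ℤ} {t : Finset S} (h : E.support ⊆ t) :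
    l1 E = ∑ s ∈ t, (E s).natAbs :=
  Finsupp.sum_of_support_subset E h _ (fun _ _ => rfl)

theorem l1_eq_zero_iff {E : S →₀ ℤ} : l1 E = 0 ↔ E = 0 := by
  constructor
  · intro h
    rw [l1, Finsupp.sum, Finset.sum_eq_zero_iff] at h
    ext s
    by_cases hs : s ∈ E.support
    · simpa using h s hs
    · simpa using hs
  · rintro rfl
    exact l1_zero

theorem l1_add_le (E E' : S →₀ ℤ) : l1 (E + E') ≤ l1 E + l1 E' := by
  classical
  rw [L1_eq_sum_of_subset (Finsupp.support_add (g₁ := E) (g₂ := E')),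
    L1_eq_sum_of_subset (Finset.subset_union_left (s₁ := E.support) (s₂ := E'.support)),
    L1_eq_sum_of_subset (Finset.subset_union_right (s₁ := E.support) (s₂ := E'.support)),
    ← Finset.sum_add_distrib]
  exact Finset.sum_le_sum fun s _ => Int.natAbs_add_le _ _

theorem L1_zsmul (n : ℤ) (E : S →₀ ℤ) : l1 (n • E) = n.natAbs * l1 E := by
  rw [L1_eq_sum_of_subset (Finsupp.support_smul (b := n) (g := E)),
    L1_eq_sum_of_subset (Finset.Subset.refl E.support), Finset.mul_sum]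
  refine Finset.sum_congr rfl fun s _ => ?_
  rw [Finsupp.smul_apply, smul_eq_mul, Int.natAbs_mul]

theorem l1_neg (E : S →₀ ℤ) : l1 (-E) = l1 E := by
  have := L1_zsmul (-1) E
  simpa using this

theorem l1_sub_le (E E' : S →₀ ℤ) : l1 (E - E') ≤ l1 E + l1 E' := by
  rw [sub_eq_add_neg]
  exact (l1_add_le _ _).trans (by rw [l1_neg])

theorem l1_nsmul (n : ℕ) (E : S →₀ ℤ) : l1 (n • E) = n * l1 E := by
  rw [← natCast_zsmul, L1_zsmul, Int.natAbs_natCast]

theorem l1_sum_le {ι : Type*} (s : Finset ι) (f : ι → S →₀ ℤ) :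
    l1 (∑ i ∈ s, f i) ≤ ∑ i ∈ s, l1 (f i) :=
  Finset.le_sum_of_subadditive l1 l1_zero.le l1_add_le s f

theorem l1_mapDomain_le (r : S → T) (E : S →₀ ℤ) : l1 (Finsupp.mapDomain r E) ≤ l1 E := by
  rw [Finsupp.mapDomain, Finsupp.sum]
  refine (l1_sum_le _ _).trans (le_of_eq ?_)
  rw [l1, Finsupp.sum]
  exact Finset.sum_congr rfl fun s _ => l1_single _ _

/-- an additive map which is bounded by `B` on the generators is bounded by `B * l1`. -/
theorem l1_map_le (c : (S →₀ ℤ) →+ (T →₀ ℤ)) (B : ℕ)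
    (hB : ∀ s, l1 (c (Finsupp.single s 1)) ≤ B) (E : S →₀ ℤ) : l1 (c E) ≤ B * l1 E := by
  conv_lhs => rw [← Finsupp.sum_single E, Finsupp.sum, map_sum]
  refine (l1_sum_le _ _).trans ?_
  rw [l1, Finsupp.sum, Finset.mul_sum]
  refine Finset.sum_le_sum fun s _ => ?_
  have h1 : Finsupp.single s (E s) = (E s) • Finsupp.single s (1 : ℤ) := by
    rw [Finsupp.smul_single, smul_eq_mul, mul_one]
  rw [h1, map_zsmul, L1_zsmul, mul_comm]
  exact Nat.mul_le_mul_right _ (hB s)

/-- for an effective divisor the norm is the sum of the values. -/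
theorem l1_eq_sum_of_nonneg {E : S →₀ ℤ} (h : ∀ s, 0 ≤ E s) :
    (l1 E : ℤ) = E.sum fun _ n => n := by
  rw [l1, Finsupp.sum, Finsupp.sum, Nat.cast_sum]
  exact Finset.sum_congr rfl fun s _ => Int.natAbs_of_nonneg (h s)

end Fermat.Agent.GR.S
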