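import Fermat.Agent.S17.FF.RiemannCor
import Fermat.Agent.GR.S.FF.L1

/-!
# GR-S: a bounded homomorphism on divisors which kills principal divisors kills all divisors of
degree zero
-/

set_option autoImplicit false

noncomputable section

open AlgebraicCurve Fermat.Agent.S17.FF

namespace Fermat.Agent.GR.S

variable {K F : Type*} [Field K] [IsAlgClosed K] [CharZero K] [Field F] [Algebra K F] [IsFF K F]

/-- every divisor of degree zero is, up to a principal divisor, a difference of two effective
divisors of degree `g`. -/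
theorem exists_bounded_rep (D : Divisor K F) (hD : Divisor.degree D = 0) :
    ∃ (f : F) (E : Divisor K F), f ≠ 0 ∧ l1 E ≤ 2 * genus K F ∧ D = E + divf f := by
  rcases isEmpty_or_nonempty (Place K F) with hemp | ⟨⟨v0⟩⟩
  · refine ⟨1, 0, one_ne_zero, by simp [l1_zero], ?_⟩
    exact Finsupp.ext fun v => (hemp.false v).elim
  set g : ℕ := genus K F with hg
  set D' : Divisor K F := D + Finsupp.single v0 (g : ℤ) with hD'
  have hdeg' : Divisor.degree D' = g := by
    rw [hD', map_add, hD, degree_single', zero_add]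
  obtain ⟨f0, hf0mem, hf0⟩ := exists_ne_zero_mem_LSpace (D := D') (by rw [hdeg'])
  have hord : ∀ v : Place K F, -D' v ≤ v.ord f0 := by
    rcases mem_LSpace.1 hf0mem with h | h
    · exact absurd h hf0
    · exact h
  set E' : Divisor K F := divf f0 + D' with hE'
  have hE'nn : ∀ v, 0 ≤ E' v := by
    intro v
    rw [hE', Finsupp.add_apply, divf_apply]
    have := hord v
    linarith
  have hE'deg : Divisor.degree E' = g := by
    rw [hE', map_add, degree_divf, zero_add, hdeg']
  have hl1E' : l1 E' = g := by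
    have h1 := l1_eq_sum_of_nonneg hE'nn
    rw [← degree_eq_sum, hE'deg] at h1
    exact_mod_cast h1
  refine ⟨f0⁻¹, E' - Finsupp.single v0 (g : ℤ), inv_ne_zero hf0, ?_, ?_⟩
  · calc l1 (E' - Finsupp.single v0 (g : ℤ)) ≤ l1 E' + l1 (Finsupp.single v0 (g : ℤ)) :=
          l1_sub_le _ _
      _ = g + g := by rw [hl1E', l1_single, Int.natAbs_natCast]
      _ = 2 * g := by ring
  · rw [divf_inv, hE', hD']
    abel

theorem eq_zero_of_bounded {S : Type*} (c : Divisor K F →+ (S →₀ ℤ))
    (hprin : ∀ f : F, f ≠ 0 → c (divf f) = 0)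
    (B : ℕ) (hB : ∀ v : Place K F, l1 (c (Finsupp.single v 1)) ≤ B)
    (D : Divisor K F) (hD : Divisor.degree D = 0) : c D = 0 := by
  set g : ℕ := genus K F with hg
  set n : ℕ := B * (2 * g) + 1 with hn
  obtain ⟨f, E, hf, hE, hDE⟩ := exists_bounded_rep (n • D) (by rw [map_nsmul, hD, smul_zero])
  have h1 : n • c D = c E := by
    rw [← map_nsmul, hDE, map_add, hprin f hf, add_zero]
  have h2 : n * l1 (c D) ≤ B * (2 * g) := by
    rw [← l1_nsmul, h1]
    exact (l1_map_le c B hB E).trans (Nat.mul_le_mul_left B hE)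
  rw [← l1_eq_zero_iff]
  by_contra hne
  have hpos : 1 ≤ l1 (c D) := Nat.one_le_iff_ne_zero.2 hne
  have : n * 1 ≤ n * l1 (c D) := Nat.mul_le_mul_left n hpos
  omega

end Fermat.Agent.GR.S
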