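import Fermat.Agent.S17.FF.Basic
import Fermat.Prelude.Def_AlgebraicCurve_Correspondence

/-!
# GR-S: a homomorphism of function fields of one variable is finite
-/

set_option autoImplicit false

noncomputable section

open AlgebraicCurve Fermat.Agent.S17.FF

namespace Fermat.Agent.GR.S

variable {K F F' : Type*} [Field K] [IsAlgClosed K] [CharZero K] [Field F] [Algebra K F]
  [Field F'] [Algebra K F'] [IsFF K F] [IsFF K F']

theorem finiteAlong (φ : F →ₐ[K] F') : FiniteAlong K φ := by
  obtain ⟨x, hx, -⟩ := (IsFF.out : ∃ x : F, Transcendental K x ∧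
    FiniteDimensional (IntermediateField.adjoin K {x}) F)
  have hφx : Transcendental K (φ x) := fun h =>
    hx ((isAlgebraic_algHom_iff φ φ.toRingHom.injective).mp h)
  have hfin := finiteDimensional_adjoin (K := K) hφx
  have hle : IntermediateField.adjoin K {φ x} ≤ φ.fieldRange := by
    rw [IntermediateField.adjoin_le_iff]
    rintro _ rfl
    exact ⟨x, rfl⟩
  obtain ⟨s, hs⟩ := hfin.fg_top
  let _ := algebraAlong φ
  show Module.Finite F F'
  refine ⟨⟨s, ?_⟩⟩
  rw [eq_top_iff]
  intro y _
  have hy : y ∈ Submodule.span (IntermediateField.adjoin K {φ x}) (s : Set F') := by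
    rw [hs]; trivial
  induction hy using Submodule.span_induction with
  | mem z hz => exact Submodule.subset_span hz
  | zero => exact zero_mem _
  | add a b _ _ ha hb => exact add_mem (ha trivial) (hb trivial)
  | smul c z _ hz =>
    obtain ⟨d, hd⟩ := hle c.2
    have h1 : c • z = d • z := by
      rw [Algebra.smul_def, Algebra.smul_def]
      congr 1
      exact hd.symm
    rw [h1]
    exact Submodule.smul_mem _ _ (hz trivial)

theorem isIntegral_along' (φ : F →ₐ[K] F') : φ.toRingHom.IsIntegral := by
  let _ := algebraAlong φ
  have : Module.Finite F F' := finiteAlong φ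
  exact (Algebra.IsIntegral.of_finite F F').isIntegral

theorem hasPrincipalDivisors_of_isFF : HasPrincipalDivisors K F := by
  obtain ⟨x, hx, hfin⟩ := (IsFF.out : ∃ x : F, Transcendental K x ∧
    FiniteDimensional (IntermediateField.adjoin K {x}) F)
  exact Fermat.Agent.S24.Zeros.hasPrincipalDivisors hx hfin

end Fermat.Agent.GR.S
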