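import Fermat.Agent.S17.FF.Aff
import Fermat.Agent.GR.S.FF.Finite
import Fermat.Agent.GR.S.FF.L1

/-!
# GR-S: the fundamental identity `∑_{w | v} e_w = [F' : F]` for function fields over an
algebraically closed field of characteristic zero
-/

set_option autoImplicit false

noncomputable section

open AlgebraicCurve Fermat.Agent.S17.FF

namespace Fermat.Agent.GR.S

variable {K F F' : Type*} [Field K] [IsAlgClosed K] [CharZero K] [Field F] [Algebra K F]
  [Field F'] [Algebra K F'] [IsFF K F] [IsFF K F']

omit [IsAlgClosed K] [CharZero K] [IsFF K F] [IsFF K F'] in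
theorem FundId_finrank_adjoin [Algebra F F'] [IsScalarTower K F F'] (x : F) :
    Module.finrank (IntermediateField.adjoin K {algebraMap F F' x}) F' =
      Module.finrank (IntermediateField.adjoin K {x}) F * Module.finrank F F' := by
  have h1 : IntermediateField.adjoin K {algebraMap F F' x} =
      (IntermediateField.adjoin K {x}).map (IsScalarTower.toAlgHom K F F') := by
    rw [IntermediateField.adjoin_map, Set.image_singleton]
    rfl
  rw [h1, Module.finrank_mul_finrank]
  symm
  exact Algebra.finrank_eq_of_equiv_equiv
    (IntermediateField.equivMap (IntermediateField.adjoin K {x})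
      (IsScalarTower.toAlgHom K F F')).toRingEquiv (RingEquiv.refl F') (by ext; rfl)

/-- the fundamental identity, non-`Along` form. -/
theorem sum_ramificationIndex_eq_finrank [Algebra F F'] [IsScalarTower K F F']
    [Algebra.IsIntegral F F'] [HasPrincipalDivisors K F'] (v : Place K F) :
    ∑ w ∈ v.fiber F', w.ramificationIndex F = Module.finrank F F' := by
  obtain ⟨x, hxA, hxv⟩ := exists_nonconstant v
  have hx : Transcendental K x := transcendental_of_ord_ne_zero hxv.ne
  have hy : Transcendental K (algebraMap F F' x) :=
    (transcendental_algebraMap_iff (algebraMap F F').injective).2 hx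
  have hfin := finiteDimensional_adjoin hx
  have h1 := S24.Zeros.sum_ord_poles hx hfin
  have h2 := S24.Zeros.sum_ord_poles hy (finiteDimensional_adjoin hy)
  have hp1 : {u : Place K F | u.ord x < 0} = {v} := by
    ext u
    constructor
    · intro hu
      by_contra hne
      exact absurd (hxA u hne) (not_le.2 hu)
    · rintro rfl
      exact hxv
  have hp2 : {w : Place K F' | w.ord (algebraMap F F' x) < 0} = ↑(v.fiber F') := by
    ext w
    rw [Finset.mem_coe, Place.mem_fiber]
    change w.ord (algebraMap F F' x) < 0 ↔ _
    rw [w.ord_restrict x]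
    have he : (0 : ℤ) < (w.ramificationIndex F : ℤ) := by
      exact_mod_cast w.ramificationIndex_pos (F := F)
    constructor
    · intro hw
      by_contra hne
      have := hxA (w.restrict F) hne
      exact absurd (mul_nonneg he.le this) (not_le.2 hw)
    · intro h
      rw [h]
      exact mul_neg_of_pos_of_neg he hxv
  rw [hp1, finsum_mem_singleton] at h1
  rw [hp2, finsum_mem_coe_finset, FundId_finrank_adjoin] at h2
  have h3 : ∑ w ∈ v.fiber F', w.ord (algebraMap F F' x) =
      (∑ w ∈ v.fiber F', (w.ramificationIndex F : ℤ)) * v.ord x := by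
    rw [Finset.sum_mul]
    refine Finset.sum_congr rfl fun w hw => ?_
    rw [w.ord_restrict x, Place.mem_fiber.1 hw]
  rw [h3, h1] at h2
  have hm : (0 : ℤ) < (Module.finrank (IntermediateField.adjoin K {x}) F : ℤ) := by
    exact_mod_cast Module.finrank_pos
  push_cast at h2
  have h4 : (∑ w ∈ v.fiber F', (w.ramificationIndex F : ℤ)) = (Module.finrank F F' : ℤ) := by
    apply mul_left_cancel₀ hm.ne'
    linarith
  exact_mod_cast h4

theorem fundamentalIdentityAlong [HasPrincipalDivisors K F'] (φ : F →ₐ[K] F')
    (hφ : φ.toRingHom.IsIntegral) : FundamentalIdentityAlong K φ hφ := by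
  letI := algebraAlong φ
  haveI := isScalarTower_along φ
  haveI := isIntegral_along φ hφ
  refine FundamentalIdentity.mk fun v => ?_
  have h := sum_ramificationIndex_eq_finrank (F' := F') v
  rw [deg_eq_one', Nat.cast_one, mul_one, ← h]
  push_cast
  refine Finset.sum_congr rfl fun w _ => ?_
  rw [deg_eq_one', Nat.cast_one, mul_one]

/-- the pull back of a point has norm `[F' : F]`. -/
theorem l1_pullbackAlong_single [HasPrincipalDivisors K F'] (φ : F →ₐ[K] F')
    (hφ : φ.toRingHom.IsIntegral) (v : Place K F) :
    l1 (Divisor.pullbackAlong φ hφ (Finsupp.single v 1)) = finrankAlong K φ := by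
  have hnn : ∀ w, 0 ≤ Divisor.pullbackAlong φ hφ (Finsupp.single v 1) w := by
    intro w
    rw [Divisor.pullbackAlong_apply]
    refine mul_nonneg (Int.natCast_nonneg _) ?_
    classical
    rw [Finsupp.single_apply]
    split_ifs <;> norm_num
  have h1 := l1_eq_sum_of_nonneg hnn
  have h2 := Divisor.degree_pullbackAlong φ hφ (fundamentalIdentityAlong φ hφ) (Finsupp.single v 1)
  rw [degree_eq_sum, degree_single', mul_one] at h2
  rw [h2] at h1
  exact_mod_cast h1

/-- the push forward of a point is a point. -/
theorem pushforwardAlong_single_one (φ : F →ₐ[K] F') (hφ : φ.toRingHom.IsIntegral)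
    (w : Place K F') :
    Divisor.pushforwardAlong φ hφ (Finsupp.single w 1) =
      Finsupp.single (w.restrictAlong φ hφ) 1 := by
  rw [Divisor.pushforwardAlong_single]
  congr 1
  letI := algebraAlong φ
  haveI := isScalarTower_along φ
  haveI := isIntegral_along φ hφ
  have h := w.deg_restrict_mul_inertiaDeg (F := F)
  rw [deg_eq_one', deg_eq_one', one_mul] at h
  change (1 : ℤ) * ((w.inertiaDeg F : ℕ) : ℤ) = 1
  rw [h]
  norm_num

theorem l1_pushforwardAlong_le (φ : F →ₐ[K] F') (hφ : φ.toRingHom.IsIntegral)
    (D : Divisor K F') : l1 (Divisor.pushforwardAlong φ hφ D) ≤ l1 D := by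
  have := l1_map_le (Divisor.pushforwardAlong φ hφ) 1 (fun s => by
    rw [pushforwardAlong_single_one, l1_single]; rfl) D
  simpa using this

theorem l1_pullbackAlong_le [HasPrincipalDivisors K F'] (φ : F →ₐ[K] F')
    (hφ : φ.toRingHom.IsIntegral) (D : Divisor K F) :
    l1 (Divisor.pullbackAlong φ hφ D) ≤ finrankAlong K φ * l1 D :=
  l1_map_le (Divisor.pullbackAlong φ hφ) (finrankAlong K φ)
    (fun s => (l1_pullbackAlong_single φ hφ s).le) D

end Fermat.Agent.GR.S
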