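import Fermat.Agent.S17.FF.Basic
import Fermat.Prelude.Def_AlgebraicCurve_Correspondence

/-!
# GR-S: compatibility of pull back of divisors and of `divf` with semilinear automorphisms
-/

set_option autoImplicit false

noncomputable section

open AlgebraicCurve

namespace Fermat.Agent.GR.S

section General

variable {K F F' : Type*} [Field K] [Field F] [Algebra K F] [Field F'] [Algebra K F']

theorem GalPull_mem_restrictAlong (φ : F →ₐ[K] F') (hφ : φ.toRingHom.IsIntegral)
    (w : Place K F') (f : F) :
    f ∈ (w.restrictAlong φ hφ).toValuationSubring ↔ φ f ∈ w.toValuationSubring := Iff.rfl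

theorem GalPull_ord_smul' (g : SemilinearAut K F) (v : Place K F) (f : F) :
    (g • v).ord f = v.ord (g⁻¹ • f) := by
  have h := SemilinearAut.ord_smul g v (g⁻¹ • f)
  rwa [smul_inv_smul] at h

theorem restrictAlong_smul (φ : F →ₐ[K] F') (hφ : φ.toRingHom.IsIntegral)
    (g : SemilinearAut K F) (g' : SemilinearAut K F')
    (h : SemilinearAut.IntertwinesAlong φ.toRingHom g g') (w : Place K F') :
    (g' • w).restrictAlong φ hφ = g • w.restrictAlong φ hφ := by
  apply Place.ext
  ext f
  rw [GalPull_mem_restrictAlong, SemilinearAut.smul_toValuationSubring,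
    SemilinearAut.smul_toValuationSubring,
    ValuationSubring.mem_pointwise_smul_iff_inv_smul_mem,
    ValuationSubring.mem_pointwise_smul_iff_inv_smul_mem, GalPull_mem_restrictAlong]
  have h1 : g'⁻¹ • φ f = φ (g⁻¹ • f) := h.inv f
  rw [h1]

theorem ramificationIndexAlong_smul (φ : F →ₐ[K] F')
    (g : SemilinearAut K F) (g' : SemilinearAut K F')
    (h : SemilinearAut.IntertwinesAlong φ.toRingHom g g') (w : Place K F') :
    (g' • w).ramificationIndexAlong φ = w.ramificationIndexAlong φ := by
  have key : {n : ℕ | 0 < n ∧ ∃ f : F, f ≠ 0 ∧ (g' • w).ord (φ f) = n} =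
      {n : ℕ | 0 < n ∧ ∃ f : F, f ≠ 0 ∧ w.ord (φ f) = n} := by
    ext n
    constructor
    · rintro ⟨hn, f, hf, hfn⟩
      refine ⟨hn, g⁻¹ • f, by simpa using hf, ?_⟩
      rw [GalPull_ord_smul'] at hfn
      have h1 : g'⁻¹ • φ f = φ (g⁻¹ • f) := h.inv f
      rw [← h1]
      exact hfn
    · rintro ⟨hn, f, hf, hfn⟩
      refine ⟨hn, g • f, by simpa using hf, ?_⟩
      have h1 : g' • φ f = φ (g • f) := h f
      rw [← h1, SemilinearAut.ord_smul]
      exact hfn
  exact congrArg sInf key

theorem pullbackAlong_smul [HasPrincipalDivisors K F'] (φ : F →ₐ[K] F')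
    (hφ : φ.toRingHom.IsIntegral) (g : SemilinearAut K F) (g' : SemilinearAut K F')
    (h : SemilinearAut.IntertwinesAlong φ.toRingHom g g') (D : Divisor K F) :
    Divisor.pullbackAlong φ hφ (g • D) = g' • Divisor.pullbackAlong φ hφ D := by
  ext w
  rw [Divisor.pullbackAlong_apply, SemilinearAut.divisor_smul_apply,
    SemilinearAut.divisor_smul_apply, Divisor.pullbackAlong_apply,
    ramificationIndexAlong_smul φ g⁻¹ g'⁻¹ h.inv, restrictAlong_smul φ hφ g⁻¹ g'⁻¹ h.inv]

theorem mapDomain_smul_of_invariant {S : Type*} (r : Place K F → S) (g : SemilinearAut K F)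
    (hr : ∀ P, r (g • P) = r P) (D : Divisor K F) :
    Finsupp.mapDomain r (g • D) = Finsupp.mapDomain r D := by
  rw [SemilinearAut.divisor_smul_def, ← Finsupp.mapDomain_comp]
  congr 1
  funext P
  exact hr P

end General

section FF

open Fermat.Agent.S17.FF

variable {K F : Type*} [Field K] [IsAlgClosed K] [CharZero K] [Field F] [Algebra K F] [IsFF K F]

theorem smul_divf (g : SemilinearAut K F) (f : F) : g • divf (K := K) f = divf (g • f) := by
  ext w
  rw [SemilinearAut.divisor_smul_apply, divf_apply, divf_apply]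
  have h := SemilinearAut.ord_smul g (g⁻¹ • w) f
  rw [smul_inv_smul] at h
  exact h.symm

end FF

end Fermat.Agent.GR.S
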