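import Fermat.Agent.GR.S.FF.FundId
import Fermat.Agent.GR.S.FF.Bounded

/-!
# GR-S: the norm formula `ord_v (N f) = ∑_{w | v} ord_w f` for function fields over an
algebraically closed field of characteristic zero
-/

set_option autoImplicit false
set_option linter.unusedSectionVars false

noncomputable section

open AlgebraicCurve Fermat.Agent.S17.FF

namespace Fermat.Agent.GR.S

section Algebra

open IsDedekindDomain IsLocalRing Fermat.Agent.S24.Zeros

theorem NormFormula_isAlgClosed {k k' : Type*} [Field k] [Field k'] [IsAlgClosed k]
    (e : k ≃+* k') : IsAlgClosed k' := by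
  apply IsAlgClosed.of_exists_root
  intro p hmp hp
  have hpe : (p.map e.symm.toRingHom).degree ≠ 0 := by
    rw [Polynomial.degree_map]
    exact ne_of_gt (Polynomial.degree_pos_of_irreducible hp)
  rcases IsAlgClosed.exists_root (k := k) (p.map e.symm.toRingHom) hpe with ⟨x, hx⟩
  use e x
  rw [Polynomial.IsRoot] at hx
  apply e.symm.injective
  rw [map_zero, ← hx]
  clear hx hpe hp hmp
  induction p using Polynomial.induction_on <;> simp_all

theorem NormFormula_inertiaDeg {A B : Type*} [CommRing A] [IsLocalRing A]
    [CommRing B] [Algebra A B] [Module.Finite A B]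
    [IsAlgClosed (ResidueField A)] (Q : Ideal B) [Q.IsMaximal] [Q.LiesOver (maximalIdeal A)] :
    Q.inertiaDeg A = 1 := by
  rw [Ideal.inertiaDeg_eq_of_isMaximal (maximalIdeal A) Q]
  let _ : Field (A ⧸ maximalIdeal A) := Ideal.Quotient.field _
  let _ : Field (B ⧸ Q) := Ideal.Quotient.field Q
  have h1 : IsAlgClosed (A ⧸ maximalIdeal A) := ‹IsAlgClosed (ResidueField A)›
  have h2 : Module.Finite (A ⧸ maximalIdeal A) (B ⧸ Q) := inferInstance
  have h3 : Algebra.IsIntegral (A ⧸ maximalIdeal A) (B ⧸ Q) := Algebra.IsIntegral.of_finite _ _
  have h4 : Function.Bijective (algebraMap (A ⧸ maximalIdeal A) (B ⧸ Q)) :=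
    IsAlgClosed.algebraMap_bijective_of_isIntegral
  rw [← Module.finrank_self (A ⧸ maximalIdeal A)]
  exact ((AlgEquiv.ofBijective (Algebra.ofId _ _) h4).toLinearEquiv.finrank_eq).symm

/-- over a discrete valuation ring with algebraically closed residue field the valuation of the
relative norm of an ideal is the sum of its valuations. -/
theorem NormFormula_emultiplicity_relNorm {A B : Type*} [CommRing A] [IsDomain A]
    [IsDiscreteValuationRing A] [CommRing B] [IsDedekindDomain B] [Algebra A B]
    [Module.Finite A B] [Module.IsTorsionFree A B] [PerfectField (FractionRing A)]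
    [IsAlgClosed (ResidueField A)] [Fintype (HeightOneSpectrum B)] (I : Ideal B) (hI : I ≠ ⊥) :
    emultiplicity (maximalIdeal A) (Ideal.relNorm A I) =
      ∑ P : HeightOneSpectrum B, emultiplicity P.asIdeal I := by
  have hm0 : maximalIdeal A ≠ ⊥ := IsDiscreteValuationRing.not_a_field A
  have hmp : Prime (maximalIdeal A) := Ideal.prime_of_isPrime hm0 inferInstance
  induction I using UniqueFactorizationMonoid.induction_on_prime with
  | h₁ => exact absurd rfl hI
  | h₂ I hI' =>
    rw [Ideal.isUnit_iff] at hI'
    subst hI'
    rw [Ideal.relNorm_top, ← Ideal.one_eq_top, ← Ideal.one_eq_top,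
      emultiplicity_of_one_right hmp.not_isUnit]
    symm
    refine Finset.sum_eq_zero fun P _ => ?_
    exact emultiplicity_of_one_right P.prime.not_isUnit
  | h₃ I Q hI0 hQ ih =>
    have hQ0 : Q ≠ ⊥ := hQ.ne_zero
    have hQp : Q.IsPrime := Ideal.isPrime_of_prime hQ
    have hQm : Q.IsMaximal := hQp.isMaximal hQ0
    have hover : Q.LiesOver (maximalIdeal A) := by
      constructor
      have : (Q.under A).IsMaximal := inferInstance
      exact (IsLocalRing.eq_maximalIdeal this).symm
    rw [map_mul, emultiplicity_mul hmp, ih hI0,
      Ideal.relNorm_eq_pow_of_isMaximal Q (maximalIdeal A),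
      NormFormula_inertiaDeg Q, emultiplicity_pow_self_of_prime hmp]
    have h1 : ∀ P : HeightOneSpectrum B, emultiplicity P.asIdeal (Q * I) =
        emultiplicity P.asIdeal Q + emultiplicity P.asIdeal I := fun P =>
      emultiplicity_mul P.prime
    simp_rw [h1]
    rw [Finset.sum_add_distrib]
    congr 1
    rw [Finset.sum_eq_single (⟨Q, hQp, hQ0⟩ : HeightOneSpectrum B)]
    · have := emultiplicity_pow_self_of_prime hQ 1
      rw [pow_one] at this
      exact this.symm
    · intro P _ hP
      rw [emultiplicity_eq_zero, Ideal.dvd_iff_le]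
      intro hle
      apply hP
      apply HeightOneSpectrum.ext
      exact (hQm.eq_of_le P.isPrime.ne_top hle).symm
    · intro h
      exact absurd (Finset.mem_univ _) h

variable {K F F' : Type*} [Field K] [Field F] [Algebra K F]
  [Field F'] [Algebra K F'] [Algebra F F'] [IsScalarTower K F F'] [Module.Finite F F']
  [HasPrincipalDivisors K F']
  {A B : Type*} [CommRing A] [IsDomain A] [IsDiscreteValuationRing A] [Algebra K A] [Algebra A F]
  [IsScalarTower K A F] [IsFractionRing A F] [Algebra A F'] [IsScalarTower A F F']
  [CommRing B] [Algebra A B] [Algebra B F'] [IsScalarTower A B F']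
  [IsIntegralClosure B A F']

/-- the places over the place of the discrete valuation ring `A` are the places whose valuation
ring contains the integral closure `B` of `A`. -/
theorem NormFormula_mem_iff (p : HeightOneSpectrum A) (w : Place K F') :
    (∀ r : B, algebraMap B F' r ∈ w.toValuationSubring) ↔
      w ∈ (Place.ofHeightOneSpectrum (K := K) (F := F) p).fiber F' := by
  rw [Place.mem_fiber]
  constructor
  · intro h
    have h1 : ∀ a : A, algebraMap A F a ∈ (w.restrict F).toValuationSubring := by
      intro a
      rw [Place.mem_restrict_iff, ← IsScalarTower.algebraMap_apply,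
        IsScalarTower.algebraMap_apply A B F']
      exact h _
    obtain ⟨p', hp'⟩ := exists_heightOneSpectrum (w.restrict F) h1
    rw [← hp']
    congr 1
    apply HeightOneSpectrum.ext
    rw [IsLocalRing.eq_maximalIdeal p'.isMaximal, IsLocalRing.eq_maximalIdeal p.isMaximal]
  · intro h r
    have h1 : ∀ a : A, algebraMap A F' a ∈ w.toValuationSubring := by
      intro a
      rw [IsScalarTower.algebraMap_apply A F F', ← Place.mem_restrict_iff, h]
      exact algebraMap_mem_ofHeightOneSpectrum p a
    let φ : A →+* w.toValuationSubring :=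
      (algebraMap A F').codRestrict w.toValuationSubring.toSubring h1
    have hint : IsIntegral w.toValuationSubring (algebraMap B F' r) := by
      have h2 : IsIntegral A r := IsIntegralClosure.isIntegral A F' r
      exact h2.map_of_comp_eq φ (algebraMap B F') (by
        ext a
        exact IsScalarTower.algebraMap_apply A B F' a)
    obtain ⟨y, hy⟩ := IsIntegrallyClosed.isIntegral_iff.1 hint
    rw [← hy]
    exact y.2

variable [IsDedekindDomain B] [IsFractionRing B F'] [Algebra K B] [IsScalarTower K B F']
  [IsAlgClosed (ResidueField A)] [PerfectField (FractionRing A)] [Module.Finite A B]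
  [Module.IsTorsionFree A B]

theorem NormFormula_ord_norm_algebraMap (p : HeightOneSpectrum A) (b : B) (hb : b ≠ 0) :
    (Place.ofHeightOneSpectrum (K := K) (F := F) p).ord (Algebra.norm F (algebraMap B F' b)) =
      ∑ w ∈ (Place.ofHeightOneSpectrum (K := K) (F := F) p).fiber F',
        w.ord (algebraMap B F' b) := by
  let e : HeightOneSpectrum B ≃
      {w : Place K F' // w ∈ (Place.ofHeightOneSpectrum (K := K) (F := F) p).fiber F'} :=
    (placeEquiv (K := K) (F := F') (R := B)).trans
      (Equiv.subtypeEquivRight (NormFormula_mem_iff (B := B) p))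
  let _ : Fintype (HeightOneSpectrum B) := Fintype.ofEquiv _ e.symm
  have hN : Algebra.intNorm A B b ≠ 0 := by
    intro h0
    have h1 := Algebra.algebraMap_intNorm (A := A) (K := F) (L := F') (B := B) b
    rw [h0, map_zero, eq_comm, Algebra.norm_eq_zero_iff] at h1
    exact hb ((IsFractionRing.injective B F') (by rw [h1, map_zero]))
  have hb' : Ideal.span {b} ≠ ⊥ := by simpa using hb
  have hN' : Ideal.relNorm A (Ideal.span {b}) ≠ ⊥ := by
    rwa [Ne, Ideal.relNorm_eq_bot_iff]
  rw [← Algebra.algebraMap_intNorm (A := A) (K := F) (L := F') (B := B) b,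
    ord_ofHeightOneSpectrum_algebraMap p hN, ← Ideal.relNorm_singleton,
    ← Finset.sum_coe_sort, ← e.sum_comp]
  have h1 := NormFormula_emultiplicity_relNorm (A := A) (Ideal.span {b}) hb'
  rw [← IsLocalRing.eq_maximalIdeal p.isMaximal,
    (FiniteMultiplicity.of_prime_left p.prime hN').emultiplicity_eq_multiplicity] at h1
  have h2 : ∀ P : HeightOneSpectrum B, emultiplicity P.asIdeal (Ideal.span {b}) =
      ((multiplicity P.asIdeal (Ideal.span {b}) : ℕ) : ℕ∞) := fun P =>
    (FiniteMultiplicity.of_prime_left P.prime hb').emultiplicity_eq_multiplicity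
  simp_rw [h2] at h1
  rw [← Nat.cast_sum, Nat.cast_inj] at h1
  rw [h1, Nat.cast_sum]
  refine Finset.sum_congr rfl fun P _ => ?_
  exact (ord_ofHeightOneSpectrum_algebraMap (K := K) (F := F') P hb).symm

variable (B) in
include B in
theorem NormFormula_ord_norm (p : HeightOneSpectrum A) (f : F') (hf : f ≠ 0) :
    (Place.ofHeightOneSpectrum (K := K) (F := F) p).ord (Algebra.norm F f) =
      ∑ w ∈ (Place.ofHeightOneSpectrum (K := K) (F := F) p).fiber F', w.ord f := by
  obtain ⟨a, b, hb, rfl⟩ := IsFractionRing.div_surjective (A := B) f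
  have hb0 : b ≠ 0 := nonZeroDivisors.ne_zero hb
  have ha0 : a ≠ 0 := by
    rintro rfl
    simp at hf
  have ha' : algebraMap B F' a ≠ 0 := fun h =>
    ha0 ((IsFractionRing.injective B F') (by rw [h, map_zero]))
  have hb' : algebraMap B F' b ≠ 0 := fun h =>
    hb0 ((IsFractionRing.injective B F') (by rw [h, map_zero]))
  rw [div_eq_mul_inv, map_mul, Algebra.norm_inv,
    Place.ord_mul _ (Algebra.norm_ne_zero_iff.mpr ha')
      (inv_ne_zero (Algebra.norm_ne_zero_iff.mpr hb')),
    Place.ord_inv, NormFormula_ord_norm_algebraMap p a ha0, NormFormula_ord_norm_algebraMap p b hb0,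
    ← Finset.sum_neg_distrib, ← Finset.sum_add_distrib]
  refine Finset.sum_congr rfl fun w _ => ?_
  rw [w.ord_mul ha' (inv_ne_zero hb'), w.ord_inv]

end Algebra

variable {K F F' : Type*} [Field K] [IsAlgClosed K] [CharZero K] [Field F] [Algebra K F]
  [Field F'] [Algebra K F'] [IsFF K F] [IsFF K F']

/-- the norm formula, non-`Along` form. -/
theorem ord_norm_eq_sum [Algebra F F'] [IsScalarTower K F F'] [Module.Finite F F']
    [HasPrincipalDivisors K F'] (v : Place K F) (f : F') (hf : f ≠ 0) :
    v.ord (Algebra.norm F f) = ∑ w ∈ v.fiber F', w.ord f := by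
  let _ : Algebra v.toValuationSubring F' :=
    ((algebraMap F F').comp (algebraMap v.toValuationSubring F)).toAlgebra
  have : IsScalarTower v.toValuationSubring F F' := IsScalarTower.of_algebraMap_eq fun _ => rfl
  have : IsScalarTower K v.toValuationSubring F' := IsScalarTower.of_algebraMap_eq fun k => by
    rw [IsScalarTower.algebraMap_apply K F F']
    rfl
  have : CharZero F := charZero_of_injective_algebraMap (algebraMap K F).injective
  have : CharZero v.toValuationSubring :=
    charZero_of_injective_algebraMap (algebraMap K v.toValuationSubring).injective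
  have : IsDedekindDomain (integralClosure v.toValuationSubring F') :=
    integralClosure.isDedekindDomain v.toValuationSubring F F'
  have : IsFractionRing (integralClosure v.toValuationSubring F') F' :=
    integralClosure.isFractionRing_of_finite_extension F F'
  have : Module.Finite v.toValuationSubring (integralClosure v.toValuationSubring F') :=
    IsIntegralClosure.finite v.toValuationSubring F F' _
  have : IsAlgClosed (IsLocalRing.ResidueField v.toValuationSubring) :=
    NormFormula_isAlgClosed (RingEquiv.ofBijective _ (residue_bijective v))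
  have hinj : Function.Injective
      (algebraMap v.toValuationSubring (integralClosure v.toValuationSubring F')) := by
    have h1 : Function.Injective (algebraMap v.toValuationSubring F') :=
      (algebraMap F F').injective.comp Subtype.val_injective
    rw [IsScalarTower.algebraMap_eq v.toValuationSubring
      (integralClosure v.toValuationSubring F') F', RingHom.coe_comp] at h1
    exact Function.Injective.of_comp h1
  have : Module.IsTorsionFree v.toValuationSubring (integralClosure v.toValuationSubring F') :=
    Module.isTorsionFree_iff_algebraMap_injective.2 hinj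
  obtain ⟨p, hp⟩ := Fermat.Agent.S24.Zeros.exists_heightOneSpectrum
    (R := v.toValuationSubring) v (fun r => r.2)
  rw [← hp]
  exact NormFormula_ord_norm (integralClosure v.toValuationSubring F') p f hf

theorem NormFormula_inertiaDeg_eq_one [Algebra F F'] [IsScalarTower K F F']
    [Algebra.IsIntegral F F'] (w : Place K F') : w.inertiaDeg F = 1 := by
  have h := w.deg_restrict_mul_inertiaDeg (F := F)
  rwa [deg_eq_one', deg_eq_one', one_mul] at h

theorem normFormulaAlong (φ : F →ₐ[K] F') (hfin : FiniteAlong K φ) :
    NormFormulaAlong K φ hfin := by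
  classical
  let _ := algebraAlong φ
  have := isScalarTower_along φ
  have : Module.Finite F F' := hfin
  have : HasPrincipalDivisors K F' := hasPrincipalDivisors_of_isFF
  show Divisor.PushforwardNormFormula K F F'
  intro f hf D hD v
  rw [Divisor.pushforward_apply, ord_norm_eq_sum v f hf, ← Finset.sum_filter]
  have h1 : ∀ w ∈ D.support.filter (fun w => w.restrict F = v),
      D w * (w.inertiaDeg F : ℤ) = w.ord f := by
    intro w _
    rw [NormFormula_inertiaDeg_eq_one, Nat.cast_one, mul_one, hD]
  rw [Finset.sum_congr rfl h1]
  refine Finset.sum_subset ?_ ?_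
  · intro w hw
    rw [Finset.mem_filter] at hw
    exact Place.mem_fiber.mpr hw.2
  · intro w hw hw'
    rw [Finset.mem_filter, not_and, Finsupp.mem_support_iff, not_imp_not] at hw'
    rw [← hD]
    exact hw' (Place.mem_fiber.mp hw)

/-- the push forward of the divisor of `f` is the divisor of the norm of `f`. -/
theorem pushforwardAlong_divf (φ : F →ₐ[K] F') (hφ : φ.toRingHom.IsIntegral) (f : F')
    (hf : f ≠ 0) :
    Divisor.pushforwardAlong φ hφ (divf f) =
      divf (letI := algebraAlong φ; Algebra.norm F f) := by
  refine Finsupp.ext fun v => ?_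
  exact normFormulaAlong φ (finiteAlong φ) f hf (divf f) (fun w => rfl) v

/-- the pull back of the divisor of `f` is the divisor of `φ f`. -/
theorem pullbackAlong_divf [HasPrincipalDivisors K F'] (φ : F →ₐ[K] F')
    (hφ : φ.toRingHom.IsIntegral) (f : F) :
    Divisor.pullbackAlong φ hφ (divf f) = divf (φ f) := by
  refine Finsupp.ext fun w => ?_
  rw [Divisor.pullbackAlong_apply, divf_apply, divf_apply, Place.ord_restrictAlong φ hφ]

end Fermat.Agent.GR.S
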